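/-
P-FF row 635 (helper83), FF-TORS: finiteness and smoothness of the torsion of `J₀(N)(ℚ̄)`,
in the shape of `Fermat.Agent.H72.FF.GeoInterfaces`.  Adapters from P-ES:
* `Fermat.Agent.H23.EsA.finite_jTors` (ES-A + ES-B),
* `Fermat.Agent.H11.h11_torsionLevelStatement` (row 411).
-/
import Fermat.Agent.H72.FF.GeoInterfaces
import Fermat.Agent.H11.TorsionLevel

set_option autoImplicit false

open AlgebraicCurve ModularCurve

namespace Fermat.Agent.H83.FF

open Fermat.Agent.H72.FF

/-- An element killed by the integer `m` is killed by `m.natAbs`. -/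
theorem natAbs_nsmul_eq_zero {J : Type*} [AddCommGroup J] {m : ℤ} {P : J} (h : m • P = 0) :
    m.natAbs • P = 0 := by
  rw [← natCast_zsmul]
  rcases Int.natAbs_eq m with h1 | h1
  · rw [← h1]
    exact h
  · have h2 : ((m.natAbs : ℕ) : ℤ) = -m := by omega
    rw [h2, neg_smul, h, neg_zero]

/-- **FF-TORS (finiteness)**: `J₀(N)(ℚ̄)[m]` is finite for `m ≠ 0`. -/
theorem torsionFinite : TorsionFiniteStatement := by
  intro N _ m hm
  have hpos : 0 < m.natAbs := Int.natAbs_pos.mpr hm
  have hfin := Fermat.Agent.H23.EsA.finite_jTors N hpos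
  let ψ : ↥(jTors N m) →
      ↥(Pic0.torsion (AlgebraicClosure ℚ) ↥(ModularCurve.modularFunctionFieldBar N) m.natAbs) :=
    fun P => ⟨(P : JZero N), by
      rw [Pic0.mem_torsion, natCast_zsmul]
      exact natAbs_nsmul_eq_zero (mem_jTors.mp P.2)⟩
  have hψ : Function.Injective ψ := by
    intro a b hab
    have h1 : ((ψ a : ↥(Pic0.torsion (AlgebraicClosure ℚ)
        ↥(ModularCurve.modularFunctionFieldBar N) m.natAbs)) : JZero N) = (ψ b : JZero N) := by
      rw [hab]
    exact Subtype.ext h1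
  exact Finite.of_injective ψ hψ

/-- **FF-TORS (smoothness)**: `J₀(N)(ℚ̄)[m]` is fixed by the Galois group of a number field. -/
theorem torsionSmooth : TorsionSmoothStatement := by
  intro N _ m hm
  have hpos : 0 < m.natAbs := Int.natAbs_pos.mpr hm
  obtain ⟨L, hL, h⟩ := Fermat.Agent.H11.h11_torsionLevelStatement N m.natAbs hpos
  refine ⟨L, hL, fun σ hσ P hP => ?_⟩
  exact h σ hσ P (natAbs_nsmul_eq_zero (mem_jTors.mp hP))

end Fermat.Agent.H83.FF
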