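/-
P-FF row 512 (helper83), part 2: weak Galois descent by minimal support.

A `ℚ̄`-subspace of `ℚ̄ⁿ` which is stable under the coordinatewise action of `G_ℚ` and is not zero
contains a nonzero vector with integer coordinates.
-/
import Mathlib

set_option autoImplicit false

namespace Fermat.Agent.H83.FF

open Finset

/-- support of a vector -/
noncomputable def dsupp {n : Type} [Fintype n] (b : n → AlgebraicClosure ℚ) : Finset n := by
  classical
  exact Finset.univ.filter fun i => b i ≠ 0

theorem mem_dsupp {n : Type} [Fintype n] (b : n → AlgebraicClosure ℚ) (i : n) :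
    i ∈ dsupp b ↔ b i ≠ 0 := by
  classical
  simp [dsupp]

/-- `ℚ̄ / ℚ` is Galois (for the algebra instance found by instance search). -/
theorem isGalois_Qbar_ff : IsGalois ℚ (AlgebraicClosure ℚ) := by
  have h : (DivisionRing.toRatAlgebra : Algebra ℚ (AlgebraicClosure ℚ)) =
      AlgebraicClosure.instAlgebra ℚ := Subsingleton.elim _ _
  rw [h]
  infer_instance

/-- **Weak descent, rational form.** -/
theorem exists_rational_of_stable {n : Type} [Fintype n]
    (B : Submodule (AlgebraicClosure ℚ) (n → AlgebraicClosure ℚ))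
    (hB : ∀ (σ : AlgebraicClosure ℚ ≃ₐ[ℚ] AlgebraicClosure ℚ) (b : n → AlgebraicClosure ℚ),
      b ∈ B → (fun i => σ (b i)) ∈ B)
    (hne : B ≠ ⊥) :
    ∃ b ∈ B, b ≠ 0 ∧ ∀ i, b i ∈ Set.range (algebraMap ℚ (AlgebraicClosure ℚ)) := by
  classical
  let P : ℕ → Prop := fun k => ∃ b ∈ B, b ≠ 0 ∧ (dsupp b).card = k
  have hP : ∃ k, P k := by
    obtain ⟨b, hb, hb0⟩ := Submodule.exists_mem_ne_zero_of_ne_bot hne
    exact ⟨_, b, hb, hb0, rfl⟩
  obtain ⟨b, hbB, hb0, hbk⟩ := Nat.find_spec hP
  have hi0 : ∃ i0, b i0 ≠ 0 := by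
    by_contra hcon
    apply hb0
    funext i
    by_contra hi
    exact hcon ⟨i, hi⟩
  obtain ⟨i0, hi0⟩ := hi0
  set b' : n → AlgebraicClosure ℚ := (b i0)⁻¹ • b with hb'
  have hb'B : b' ∈ B := B.smul_mem _ hbB
  have hb'i0 : b' i0 = 1 := by
    simp [hb', hi0]
  have hsupp : dsupp b' = dsupp b := by
    ext i
    simp [mem_dsupp, hb', hi0]
  refine ⟨b', hb'B, ?_, ?_⟩
  · intro h
    have := congrFun h i0
    rw [hb'i0] at this
    simp at this
  · intro i
    haveI := isGalois_Qbar_ff
    rw [InfiniteGalois.mem_range_algebraMap_iff_fixed]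
    intro σ
    set c : n → AlgebraicClosure ℚ := (fun j => σ (b' j)) - b' with hc
    have hcB : c ∈ B := B.sub_mem (hB σ b' hb'B) hb'B
    by_contra hne'
    have hc0 : c ≠ 0 := by
      intro h
      have := congrFun h i
      simp only [hc, Pi.sub_apply, Pi.zero_apply, sub_eq_zero] at this
      exact hne' this
    have hsub : dsupp c ⊆ (dsupp b').erase i0 := by
      intro j hj
      rw [mem_dsupp] at hj
      rw [Finset.mem_erase, mem_dsupp]
      constructor
      · rintro rfl
        apply hj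
        simp [hc, hb'i0]
      · intro hj0
        apply hj
        simp [hc, hj0]
    have hlt : (dsupp c).card < (dsupp b').card := by
      refine lt_of_le_of_lt (Finset.card_le_card hsub) ?_
      refine Finset.card_erase_lt_of_mem ?_
      rw [mem_dsupp, hb'i0]
      exact one_ne_zero
    rw [hsupp, hbk] at hlt
    exact Nat.find_min hP hlt ⟨c, hcB, hc0, rfl⟩

/-- **Weak descent, integral form.** -/
theorem exists_integral_of_stable {n : Type} [Fintype n]
    (B : Submodule (AlgebraicClosure ℚ) (n → AlgebraicClosure ℚ))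
    (hB : ∀ (σ : AlgebraicClosure ℚ ≃ₐ[ℚ] AlgebraicClosure ℚ) (b : n → AlgebraicClosure ℚ),
      b ∈ B → (fun i => σ (b i)) ∈ B)
    (hne : B ≠ ⊥) :
    ∃ m : n → ℤ, m ≠ 0 ∧ (fun i => ((m i : ℤ) : AlgebraicClosure ℚ)) ∈ B := by
  classical
  obtain ⟨b, hbB, hb0, hrat⟩ := exists_rational_of_stable B hB hne
  choose q hq using hrat
  let D : ℕ := ∏ i, (q i).den
  have hD0 : D ≠ 0 := Finset.prod_ne_zero_iff.mpr fun i _ => (q i).den_nz
  have hint : ∀ i, ∃ m : ℤ, (D : ℚ) * q i = m := by
    intro i
    have hdvd : (q i).den ∣ D := Finset.dvd_prod_of_mem _ (Finset.mem_univ i)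
    obtain ⟨e, he⟩ := hdvd
    refine ⟨e * (q i).num, ?_⟩
    have h3 : ((q i).den : ℚ) * q i = (q i).num := Rat.den_mul_eq_num _
    rw [he]
    push_cast
    linear_combination (e : ℚ) * h3
  choose m hm using hint
  refine ⟨m, ?_, ?_⟩
  · intro h0
    apply hb0
    funext i
    have h1 := hm i
    rw [h0] at h1
    simp only [Pi.zero_apply, Int.cast_zero, mul_eq_zero] at h1
    rcases h1 with h1 | h1
    · exact absurd (by exact_mod_cast h1) hD0
    · rw [← hq i, h1]
      simp
  · have : (fun i => ((m i : ℤ) : AlgebraicClosure ℚ)) = (D : AlgebraicClosure ℚ) • b := by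
      funext i
      simp only [Pi.smul_apply, smul_eq_mul]
      rw [← hq i]
      have h1 := congrArg (algebraMap ℚ (AlgebraicClosure ℚ)) (hm i)
      rw [map_mul, map_natCast, map_intCast] at h1
      exact h1.symm
    rw [this]
    exact B.smul_mem _ hbB

end Fermat.Agent.H83.FF
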