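/-
P-FF row 512 (helper83), part 3: Lagrange interpolation.  A set of functions on a finite set with
values in a field which is closed under multiplication, contains `1` and separates points spans
the space of all functions.
-/
import Mathlib

set_option autoImplicit false

namespace Fermat.Agent.H83.FF

open Finset

/-- Lagrange interpolation: a submonoid of functions `Z → K` (`Z` finite, `K` a field) which
separates the points of `Z` spans all functions. -/
theorem span_eq_top_of_separates {Z K : Type} [Finite Z] [Field K]
    (S : Submonoid (Z → K)) (hsep : ∀ z z' : Z, z ≠ z' → ∃ h ∈ S, h z ≠ h z') :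
    Submodule.span K (S : Set (Z → K)) = ⊤ := by
  classical
  haveI : Fintype Z := Fintype.ofFinite Z
  let A : Subalgebra K (Z → K) := Algebra.adjoin K (S : Set (Z → K))
  have hA : Subalgebra.toSubmodule A = Submodule.span K (S : Set (Z → K)) := by
    rw [Algebra.adjoin_eq_span, Submonoid.closure_eq]
  rw [← hA]
  rw [eq_top_iff]
  intro g _
  rw [Subalgebra.mem_toSubmodule]
  -- indicator functions
  have hδ : ∀ z : Z, (Pi.single z (1 : K) : Z → K) ∈ A := by
    intro z
    have hch : ∀ z' : Z, z' ≠ z → ∃ h ∈ S, h z ≠ h z' := fun z' hz' => hsep z z' (Ne.symm hz')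
    -- choose separating functions
    let h : Z → (Z → K) := fun z' => if hz' : z' ≠ z then (hch z' hz').choose else 1
    have hhS : ∀ z', z' ≠ z → h z' ∈ S := by
      intro z' hz'
      simp only [h, dif_pos hz']
      exact (hch z' hz').choose_spec.1
    have hhne : ∀ z', z' ≠ z → h z' z ≠ h z' z' := by
      intro z' hz'
      simp only [h, dif_pos hz']
      exact (hch z' hz').choose_spec.2
    have hprod : (Pi.single z (1 : K) : Z → K) =
        ∏ z' ∈ Finset.univ.erase z,
          ((h z' z - h z' z')⁻¹ • (h z' - algebraMap K (Z → K) (h z' z'))) := by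
      funext w
      rw [Finset.prod_apply]
      by_cases hw : w = z
      · subst hw
        rw [Pi.single_eq_same]
        symm
        apply Finset.prod_eq_one
        intro z' hz'
        have hz'' : z' ≠ w := Finset.ne_of_mem_erase hz'
        simp only [Pi.smul_apply, Pi.sub_apply, Pi.algebraMap_apply, Algebra.algebraMap_self,
          RingHom.id_apply, smul_eq_mul]
        exact inv_mul_cancel₀ (sub_ne_zero.mpr (hhne z' hz''))
      · rw [Pi.single_eq_of_ne hw]
        symm
        apply Finset.prod_eq_zero (Finset.mem_erase.mpr ⟨hw, Finset.mem_univ w⟩)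
        simp
    rw [hprod]
    refine Subalgebra.prod_mem _ fun z' hz' => ?_
    have hz'' : z' ≠ z := Finset.ne_of_mem_erase hz'
    refine Subalgebra.smul_mem _ ?_ _
    refine Subalgebra.sub_mem _ ?_ (Subalgebra.algebraMap_mem _ _)
    exact Algebra.subset_adjoin (hhS z' hz'')
  have hg : g = ∑ z : Z, g z • (Pi.single z (1 : K) : Z → K) := by
    funext w
    rw [Finset.sum_apply]
    simp only [Pi.smul_apply, smul_eq_mul]
    rw [Finset.sum_eq_single w]
    · simp
    · intro b _ hb
      rw [Pi.single_eq_of_ne (Ne.symm hb)]
      simp
    · intro hw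
      exact absurd (Finset.mem_univ w) hw
  rw [hg]
  exact Subalgebra.sum_mem _ fun z _ => Subalgebra.smul_mem _ (hδ z) _

end Fermat.Agent.H83.FF
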