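/-
P-FF row 512 (helper83), part 1: the ring `ℤ_(ℓ) = GaloisRep.ratLocalizedAt ℓ` is a principal
ideal domain.
-/
import Mathlib
import Fermat.Prelude.Def_GaloisRep_Flat

set_option autoImplicit false

namespace Fermat.Agent.H83.FF

/-- Membership in `ℤ_(ℓ)` in terms of the `ℓ`-adic valuation. -/
theorem mem_ratLocalizedAt_iff (ℓ : ℕ) [hℓ : Fact ℓ.Prime] (q : ℚ) (hq : q ≠ 0) :
    q ∈ GaloisRep.ratLocalizedAt ℓ ↔ 0 ≤ padicValRat ℓ q := by
  have hden : q.den ≠ 0 := q.den_nz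
  have hnum : q.num ≠ 0 := Rat.num_ne_zero.mpr hq
  change q.den.Coprime ℓ ↔ _
  unfold padicValRat
  constructor
  · intro h
    have h1 : ¬ ℓ ∣ q.den := by
      intro hd
      have := Nat.Coprime.eq_one_of_dvd h.symm hd
      exact hℓ.out.one_lt.ne' this
    rw [padicValNat.eq_zero_of_not_dvd h1]
    simp
  · intro h
    by_contra hc
    have hd : ℓ ∣ q.den := by
      by_contra hd
      exact hc ((Nat.Prime.coprime_iff_not_dvd hℓ.out).mpr hd).symm
    have hn : ¬ (ℓ : ℤ) ∣ q.num := by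
      intro hn
      have h2 : ℓ ∣ q.num.natAbs := Int.natCast_dvd.mp hn
      have h3 := Nat.dvd_gcd h2 hd
      rw [q.reduced] at h3
      exact hℓ.out.one_lt.ne' (Nat.dvd_one.mp h3)
    have h4 : padicValInt ℓ q.num = 0 := padicValInt.eq_zero_of_not_dvd hn
    have h5 : 1 ≤ padicValNat ℓ q.den := one_le_padicValNat_of_dvd hden hd
    rw [h4] at h
    omega

/-- `ℤ_(ℓ)` is a principal ideal ring. -/
theorem isPrincipalIdealRing_ratLocalizedAt (ℓ : ℕ) [hℓ : Fact ℓ.Prime] :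
    IsPrincipalIdealRing (GaloisRep.ratLocalizedAt ℓ) := by
  constructor
  intro I
  by_cases hI : I = ⊥
  · subst hI
    exact bot_isPrincipal
  obtain ⟨x, hxI, hx0⟩ := Submodule.exists_mem_ne_zero_of_ne_bot hI
  -- the set of valuations of nonzero elements of `I`
  let P : ℕ → Prop := fun n => ∃ y : GaloisRep.ratLocalizedAt ℓ, y ∈ I ∧ y ≠ 0 ∧
    padicValRat ℓ (y : ℚ) = n
  have hval : ∀ y : GaloisRep.ratLocalizedAt ℓ, y ≠ 0 → 0 ≤ padicValRat ℓ (y : ℚ) := by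
    intro y hy
    have hy' : (y : ℚ) ≠ 0 := fun h => hy (Subtype.ext h)
    exact (mem_ratLocalizedAt_iff ℓ _ hy').mp y.2
  have hP : ∃ n, P n := by
    refine ⟨(padicValRat ℓ (x : ℚ)).toNat, x, hxI, hx0, ?_⟩
    exact (Int.toNat_of_nonneg (hval x hx0)).symm
  classical
  obtain ⟨x₀, hx₀I, hx₀0, hx₀v⟩ := Nat.find_spec hP
  have hx₀' : (x₀ : ℚ) ≠ 0 := fun h => hx₀0 (Subtype.ext h)
  refine ⟨⟨x₀, ?_⟩⟩
  apply le_antisymm
  · intro y hy
    rw [Submodule.mem_span_singleton]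
    by_cases hy0 : y = 0
    · exact ⟨0, by simp [hy0]⟩
    have hy' : (y : ℚ) ≠ 0 := fun h => hy0 (Subtype.ext h)
    have hmin : Nat.find hP ≤ (padicValRat ℓ (y : ℚ)).toNat :=
      Nat.find_min' hP ⟨y, hy, hy0, (Int.toNat_of_nonneg (hval y hy0)).symm⟩
    have hc : ((y : ℚ) / (x₀ : ℚ)) ∈ GaloisRep.ratLocalizedAt ℓ := by
      rw [mem_ratLocalizedAt_iff ℓ _ (div_ne_zero hy' hx₀'), padicValRat.div hy' hx₀', hx₀v]
      have := hval y hy0
      omega
    refine ⟨⟨_, hc⟩, ?_⟩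
    apply Subtype.ext
    simp only [smul_eq_mul, Subring.coe_mul]
    field_simp
  · rw [Submodule.span_le]
    intro y hy
    rw [Set.mem_singleton_iff.mp hy]
    exact hx₀I

end Fermat.Agent.H83.FF
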