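/-
P-FF row 512 (helper83), part 4: the descent core for quotients of concrete Hopf orders.
-/
import Mathlib
import Fermat.Agent.H10.FF.Interfaces
import Fermat.Agent.H83.FF.QuotPID
import Fermat.Agent.H83.FF.QuotDescent
import Fermat.Agent.H83.FF.QuotLagrange

set_option autoImplicit false

noncomputable section

namespace Fermat.Agent.H83.FF

open Fermat.Agent.H10.FF

/-- **Descent core.** Let `v_j` be finitely many Galois-equivariant functions on `Z` such that no
nontrivial integral combination of them is constant on the fibres of `π`.  Then no nontrivial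
`ℚ̄`-combination is constant on the fibres of `π`. -/
theorem coeff_eq_zero_of_fibreConst {J : Type} [Fintype J] {Z Z'' : Type} (π : Z → Z'')
    (act : GQ → Z → Z) (act'' : GQ → Z'' → Z'')
    (hsurj : ∀ σ, Function.Surjective (act σ)) (hinj : ∀ σ, Function.Injective (act'' σ))
    (hπ : ∀ σ z, π (act σ z) = act'' σ (π z))
    (v : J → Z → AlgebraicClosure ℚ) (hv : ∀ j (σ : GQ) z, v j (act σ z) = σ (v j z))
    (hint : ∀ m : J → ℤ, (∀ x x', π x = π x' →
      ∑ j, ((m j : ℤ) : AlgebraicClosure ℚ) * v j x = ∑ j, ((m j : ℤ) : AlgebraicClosure ℚ) * v j x')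
        → m = 0)
    (b : J → AlgebraicClosure ℚ)
    (hb : ∀ x x', π x = π x' → ∑ j, b j * v j x = ∑ j, b j * v j x') : b = 0 := by
  classical
  let B : Submodule (AlgebraicClosure ℚ) (J → AlgebraicClosure ℚ) :=
    { carrier := {b | ∀ x x', π x = π x' → ∑ j, b j * v j x = ∑ j, b j * v j x'}
      zero_mem' := by
        intro x x' _
        simp
      add_mem' := by
        intro a c ha hc x x' hx
        simp only [Pi.add_apply, add_mul, Finset.sum_add_distrib]
        rw [ha x x' hx, hc x x' hx]
      smul_mem' := by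
        intro r a ha x x' hx
        simp only [Pi.smul_apply, smul_eq_mul, mul_assoc]
        rw [← Finset.mul_sum, ← Finset.mul_sum, ha x x' hx] }
  have hB : ∀ (σ : GQ) (b : J → AlgebraicClosure ℚ), b ∈ B → (fun i => σ (b i)) ∈ B := by
    intro σ c hc x x' hx
    obtain ⟨y, rfl⟩ := hsurj σ x
    obtain ⟨y', rfl⟩ := hsurj σ x'
    have hy : π y = π y' := by
      apply hinj σ
      rw [← hπ, ← hπ, hx]
    have h1 := congrArg σ (hc y y' hy)
    simp only [map_sum, map_mul] at h1
    simp only [hv]
    exact h1
  by_contra hb0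
  have hbB : b ∈ B := hb
  have hne : B ≠ ⊥ := by
    intro h
    rw [h, Submodule.mem_bot] at hbB
    exact hb0 hbB
  obtain ⟨m, hm0, hmB⟩ := exists_integral_of_stable B hB hne
  exact hm0 (hint m hmB)

end Fermat.Agent.H83.FF
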