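/-
P-FF row 512 (helper83), part 5: the quotient of a concrete Hopf order by a Galois-stable
subgroup is a concrete Hopf order (functions which are constant on the fibres).
-/
import Mathlib
import Fermat.Agent.H10.FF.Interfaces
import Fermat.Agent.H83.FF.QuotCore

set_option autoImplicit false

noncomputable section

namespace Fermat.Agent.H83.FF

open Fermat.Agent.H10.FF

/-- pullback of functions along a map, as an algebra homomorphism -/
def pullAlg (R : Type) [CommRing R] [Algebra R (AlgebraicClosure ℚ)] {X Y : Type} (π : X → Y) :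
    (Y → AlgebraicClosure ℚ) →ₐ[R] (X → AlgebraicClosure ℚ) where
  toFun g := g ∘ π
  map_one' := rfl
  map_mul' _ _ := rfl
  map_zero' := rfl
  map_add' _ _ := rfl
  commutes' _ := rfl

@[simp] theorem pullAlg_apply (R : Type) [CommRing R] [Algebra R (AlgebraicClosure ℚ)]
    {X Y : Type} (π : X → Y) (g : Y → AlgebraicClosure ℚ) (x : X) :
    pullAlg R π g x = g (π x) := rfl

section

variable {ℓ : ℕ} {Z Z'' : Type}

/-- the submodule of `H₀` of functions which are constant on the fibres of `π` -/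
def fibreSub (π : Z → Z'') (H₀ : Subalgebra (Zl ℓ) (Z → AlgebraicClosure ℚ)) :
    Submodule (Zl ℓ) H₀ where
  carrier := {h | ∀ x x', π x = π x' → (h : Z → AlgebraicClosure ℚ) x = h.1 x'}
  zero_mem' := by
    intro x x' _
    rfl
  add_mem' := by
    intro a b ha hb x x' hx
    show (a.1 + b.1) x = (a.1 + b.1) x'
    simp only [Pi.add_apply]
    rw [ha x x' hx, hb x x' hx]
  smul_mem' := by
    intro r a ha x x' hx
    show (r • a.1) x = (r • a.1) x'
    simp only [Pi.smul_apply]
    rw [ha x x' hx]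

theorem mem_fibreSub (π : Z → Z'') (H₀ : Subalgebra (Zl ℓ) (Z → AlgebraicClosure ℚ)) (h : H₀) :
    h ∈ fibreSub π H₀ ↔ ∀ x x', π x = π x' → (h : Z → AlgebraicClosure ℚ) x = h.1 x' := Iff.rfl

theorem algebraMap_zl_ne_zero {r : Zl ℓ} (hr : r ≠ 0) :
    algebraMap (Zl ℓ) (AlgebraicClosure ℚ) r ≠ 0 := by
  intro h0
  apply hr
  have h1 : algebraMap ℚ (AlgebraicClosure ℚ) (r : ℚ) = algebraMap ℚ (AlgebraicClosure ℚ) 0 := by
    rw [map_zero]
    exact h0
  exact Subtype.ext ((algebraMap ℚ (AlgebraicClosure ℚ)).injective h1)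

theorem torsionFree_quot (π : Z → Z'') (H₀ : Subalgebra (Zl ℓ) (Z → AlgebraicClosure ℚ)) :
    Module.IsTorsionFree (Zl ℓ) (H₀ ⧸ fibreSub π H₀) where
  isSMulRegular r hr := by
    intro x y hxy
    obtain ⟨a, rfl⟩ := Submodule.Quotient.mk_surjective _ x
    obtain ⟨b, rfl⟩ := Submodule.Quotient.mk_surjective _ y
    have hxy' : Submodule.Quotient.mk (p := fibreSub π H₀) (r • a) =
        Submodule.Quotient.mk (p := fibreSub π H₀) (r • b) := hxy
    rw [Submodule.Quotient.eq] at hxy' ⊢
    intro z z' hz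
    have h1 := hxy' z z' hz
    have h2 : ∀ w : Z, ((r • a - r • b : H₀) : Z → AlgebraicClosure ℚ) w =
        algebraMap (Zl ℓ) (AlgebraicClosure ℚ) r * ((a - b : H₀) : Z → AlgebraicClosure ℚ) w := by
      intro w
      show (r • a.1 - r • b.1) w = _ * (a.1 - b.1) w
      simp only [Pi.sub_apply, Pi.smul_apply]
      rw [Algebra.smul_def, Algebra.smul_def]
      ring
    rw [h2, h2] at h1
    exact mul_left_cancel₀ (algebraMap_zl_ne_zero hr.ne_zero) h1

theorem coe_sum_smul_apply {J : Type} [Fintype J]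
    (H₀ : Subalgebra (Zl ℓ) (Z → AlgebraicClosure ℚ)) (r : J → Zl ℓ) (v : J → H₀) (x : Z) :
    ((∑ j, r j • v j : H₀) : Z → AlgebraicClosure ℚ) x =
      ∑ j, algebraMap (Zl ℓ) (AlgebraicClosure ℚ) (r j) * (v j).1 x := by
  rw [AddSubmonoidClass.coe_finsetSum, Finset.sum_apply]
  refine Finset.sum_congr rfl fun j _ => ?_
  show (r j • (v j).1) x = _
  rw [Pi.smul_apply, Algebra.smul_def]

/-- **The retraction.**  There is a map `p` from `H₀` to the fibre-constant elements of `H₀`
such that every `ℚ̄`-combination of elements of `H₀` which is constant on the fibres of `π` is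
unchanged when `p` is applied to the elements. -/
theorem exists_retraction [Fact ℓ.Prime] [AddCommGroup Z] (π : Z → Z'')
    (act : GQ → Z → Z) (act'' : GQ → Z'' → Z'')
    (hsurj : ∀ σ, Function.Surjective (act σ)) (hinj : ∀ σ, Function.Injective (act'' σ))
    (hπ : ∀ σ z, π (act σ z) = act'' σ (π z))
    (H₀ : Subalgebra (Zl ℓ) (Z → AlgebraicClosure ℚ)) (hH : IsConcreteHopfOrder ℓ act H₀) :
    ∃ p : (Z → AlgebraicClosure ℚ) → (Z → AlgebraicClosure ℚ),
      (∀ a ∈ H₀, p a ∈ H₀) ∧
      (∀ a ∈ H₀, ∀ x x', π x = π x' → p a x = p a x') ∧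
      (∀ (n : ℕ) (a : Fin n → Z → AlgebraicClosure ℚ) (c : Fin n → AlgebraicClosure ℚ),
        (∀ i, a i ∈ H₀) →
        (∀ x x', π x = π x' → ∑ i, c i * a i x = ∑ i, c i * a i x') →
        ∀ x, ∑ i, c i * p (a i) x = ∑ i, c i * a i x) := by
  classical
  haveI : IsPrincipalIdealRing (Zl ℓ) := isPrincipalIdealRing_ratLocalizedAt ℓ
  haveI hfin : Module.Finite (Zl ℓ) H₀ := by
    have h1 : Module.Finite (Zl ℓ) (Subalgebra.toSubmodule H₀) :=
      Module.Finite.iff_fg.mpr hH.finite
    exact h1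
  haveI := torsionFree_quot π H₀
  haveI : Module.Free (Zl ℓ) (H₀ ⧸ fibreSub π H₀) := Module.free_of_finite_type_torsion_free'
  let J := Module.Free.ChooseBasisIndex (Zl ℓ) (H₀ ⧸ fibreSub π H₀)
  let vb : Module.Basis J (Zl ℓ) (H₀ ⧸ fibreSub π H₀) := Module.Free.chooseBasis _ _
  have hlift : ∀ j : J, ∃ a : H₀, Submodule.Quotient.mk (p := fibreSub π H₀) a = vb j :=
    fun j => Submodule.Quotient.mk_surjective _ (vb j)
  choose v hv using hlift
  let qH : H₀ → H₀ := fun a =>
    ∑ j, vb.repr (Submodule.Quotient.mk (p := fibreSub π H₀) a) j • v j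
  let pH : H₀ → H₀ := fun a => a - qH a
  have hpN : ∀ a : H₀, pH a ∈ fibreSub π H₀ := by
    intro a
    rw [← Submodule.Quotient.mk_eq_zero]
    show Submodule.Quotient.mk (a - qH a) = 0
    rw [Submodule.Quotient.mk_sub, sub_eq_zero]
    show _ = Submodule.Quotient.mk
      (∑ j, vb.repr (Submodule.Quotient.mk (p := fibreSub π H₀) a) j • v j)
    have h1 : Submodule.Quotient.mk (p := fibreSub π H₀)
        (∑ j, vb.repr (Submodule.Quotient.mk (p := fibreSub π H₀) a) j • v j) =
        ∑ j, vb.repr (Submodule.Quotient.mk (p := fibreSub π H₀) a) j • vb j := by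
      rw [← Submodule.mkQ_apply, map_sum]
      refine Finset.sum_congr rfl fun j _ => ?_
      rw [map_smul, Submodule.mkQ_apply, hv]
    rw [h1, vb.sum_repr]
  -- the descent hypothesis
  have hint : ∀ m : J → ℤ, (∀ x x', π x = π x' →
      ∑ j, ((m j : ℤ) : AlgebraicClosure ℚ) * (v j).1 x =
        ∑ j, ((m j : ℤ) : AlgebraicClosure ℚ) * (v j).1 x') → m = 0 := by
    intro m hm
    have hmem : (∑ j, ((m j : ℤ) : Zl ℓ) • v j) ∈ fibreSub π H₀ := by
      intro x x' hx
      show ((∑ j, ((m j : ℤ) : Zl ℓ) • v j : H₀) : Z → AlgebraicClosure ℚ) x =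
        ((∑ j, ((m j : ℤ) : Zl ℓ) • v j : H₀) : Z → AlgebraicClosure ℚ) x'
      rw [coe_sum_smul_apply, coe_sum_smul_apply]
      simp only [map_intCast]
      exact hm x x' hx
    rw [← Submodule.Quotient.mk_eq_zero, ← Submodule.mkQ_apply, map_sum] at hmem
    simp only [map_smul, Submodule.mkQ_apply, hv] at hmem
    have h2 := Fintype.linearIndependent_iff.mp vb.linearIndependent _ hmem
    funext j
    have h3 := h2 j
    have h4 : ((m j : ℤ) : ℚ) = 0 := by
      have := congrArg (Subtype.val : Zl ℓ → ℚ) h3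
      simpa using this
    exact_mod_cast h4
  refine ⟨fun f => if hf : f ∈ H₀ then (pH ⟨f, hf⟩ : Z → AlgebraicClosure ℚ) else 0, ?_, ?_, ?_⟩
  · intro a ha
    simp only [dif_pos ha]
    exact (pH ⟨a, ha⟩).2
  · intro a ha x x' hx
    simp only [dif_pos ha]
    exact hpN ⟨a, ha⟩ x x' hx
  · intro n a c ha hc x
    -- the coefficients
    let b : J → AlgebraicClosure ℚ := fun j => ∑ i, c i *
      algebraMap (Zl ℓ) (AlgebraicClosure ℚ)
        (vb.repr (Submodule.Quotient.mk (p := fibreSub π H₀) ⟨a i, ha i⟩) j)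
    have hq : ∀ (i : Fin n) (y : Z), (qH ⟨a i, ha i⟩ : Z → AlgebraicClosure ℚ) y =
        ∑ j, algebraMap (Zl ℓ) (AlgebraicClosure ℚ)
          (vb.repr (Submodule.Quotient.mk (p := fibreSub π H₀) ⟨a i, ha i⟩) j) * (v j).1 y :=
      fun i y => coe_sum_smul_apply H₀ _ v y
    have hp : ∀ (i : Fin n) (y : Z), (pH ⟨a i, ha i⟩ : Z → AlgebraicClosure ℚ) y =
        a i y - (qH ⟨a i, ha i⟩ : Z → AlgebraicClosure ℚ) y := fun i y => rfl
    have hbsum : ∀ y : Z, ∑ j, b j * (v j).1 y =
        ∑ i, c i * (qH ⟨a i, ha i⟩ : Z → AlgebraicClosure ℚ) y := by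
      intro y
      simp only [b, hq, Finset.sum_mul, Finset.mul_sum]
      rw [Finset.sum_comm]
      refine Finset.sum_congr rfl fun i _ => Finset.sum_congr rfl fun j _ => ?_
      ring
    have hbW : ∀ x x', π x = π x' → ∑ j, b j * (v j).1 x = ∑ j, b j * (v j).1 x' := by
      intro y y' hy
      rw [hbsum, hbsum]
      have h1 : ∀ w : Z, ∑ i, c i * (qH ⟨a i, ha i⟩ : Z → AlgebraicClosure ℚ) w =
          ∑ i, c i * a i w - ∑ i, c i * (pH ⟨a i, ha i⟩ : Z → AlgebraicClosure ℚ) w := by
        intro w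
        rw [← Finset.sum_sub_distrib]
        refine Finset.sum_congr rfl fun i _ => ?_
        rw [hp]
        ring
      rw [h1, h1, hc y y' hy]
      congr 1
      refine Finset.sum_congr rfl fun i _ => ?_
      rw [hpN ⟨a i, ha i⟩ y y' hy]
    have hb0 : b = 0 := coeff_eq_zero_of_fibreConst π act act'' hsurj hinj hπ
      (fun j => (v j).1) (fun j σ z => hH.equivariant _ (v j).2 σ z) hint b hbW
    have hq0 : ∑ i, c i * (qH ⟨a i, ha i⟩ : Z → AlgebraicClosure ℚ) x = 0 := by
      rw [← hbsum, hb0]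
      simp
    simp only [dif_pos (ha _)]
    simp only [hp, mul_sub, Finset.sum_sub_distrib, hq0, sub_zero]

/-- **Quotients of concrete Hopf orders.**  If `H₀` is a concrete Hopf order on the finite
group `Z` and `π : Z → Z''` is a surjective equivariant homomorphism, then the functions on `Z''`
whose pullback lies in `H₀` form a concrete Hopf order on `Z''`. -/
theorem quotient_concrete (ℓ : ℕ) [Fact ℓ.Prime] {Z Z'' : Type} [AddCommGroup Z] [Finite Z]
    [AddCommGroup Z''] (act : GQ → Z → Z) (act'' : GQ → Z'' → Z'') (π : Z →+ Z'')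
    (hπs : Function.Surjective π)
    (hsurj : ∀ σ, Function.Surjective (act σ)) (hinj : ∀ σ, Function.Injective (act'' σ))
    (hπ : ∀ σ z, π (act σ z) = act'' σ (π z))
    (H₀ : Subalgebra (Zl ℓ) (Z → AlgebraicClosure ℚ)) (hH : IsConcreteHopfOrder ℓ act H₀) :
    IsConcreteHopfOrder ℓ act'' (H₀.comap (pullAlg (Zl ℓ) π)) := by
  classical
  obtain ⟨p, hpH, hpW, hpc⟩ := exists_retraction (⇑π) act act'' hsurj hinj hπ H₀ hH
  -- descent of fibre-constant functions in `H₀` to `Z''`
  have hdesc : ∀ f : Z → AlgebraicClosure ℚ, f ∈ H₀ → (∀ x x', π x = π x' → f x = f x') →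
      ∃ f'' : Z'' → AlgebraicClosure ℚ, f'' ∈ H₀.comap (pullAlg (Zl ℓ) π) ∧
        ∀ x, f'' (π x) = f x := by
    intro f hf hfW
    refine ⟨fun y => f (Function.surjInv hπs y), ?_, ?_⟩
    · rw [Subalgebra.mem_comap]
      have h1 : pullAlg (Zl ℓ) π (fun y => f (Function.surjInv hπs y)) = f := by
        funext x
        exact hfW _ _ (Function.surjInv_eq hπs (π x))
      rw [h1]
      exact hf
    · intro x
      exact hfW _ _ (Function.surjInv_eq hπs (π x))
  refine ⟨?_, ?_, ?_, ?_, ?_⟩
  · -- equivariance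
    intro h hh σ z
    obtain ⟨x, rfl⟩ := hπs z
    rw [Subalgebra.mem_comap] at hh
    have h1 := hH.equivariant _ hh σ x
    simp only [pullAlg_apply] at h1
    rw [← hπ]
    exact h1
  · -- finiteness
    haveI : IsPrincipalIdealRing (Zl ℓ) := isPrincipalIdealRing_ratLocalizedAt ℓ
    have hinjP : Function.Injective (pullAlg (Zl ℓ) (⇑π)).toLinearMap := by
      intro f g hfg
      funext y
      obtain ⟨x, rfl⟩ := hπs y
      exact congrFun hfg x
    apply Submodule.fg_of_fg_map_injective (pullAlg (Zl ℓ) (⇑π)).toLinearMap hinjP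
    have hle : (Subalgebra.toSubmodule (H₀.comap (pullAlg (Zl ℓ) (⇑π)))).map
        (pullAlg (Zl ℓ) (⇑π)).toLinearMap ≤ Subalgebra.toSubmodule H₀ := by
      rintro _ ⟨f, hf, rfl⟩
      exact hf
    haveI : IsNoetherian (Zl ℓ) (Subalgebra.toSubmodule H₀) :=
      isNoetherian_of_fg_of_noetherian _ hH.finite
    haveI := isNoetherian_of_le hle
    exact Module.Finite.iff_fg.mp inferInstance
  · -- separation
    intro z w hzw
    obtain ⟨x, rfl⟩ := hπs z
    obtain ⟨y, rfl⟩ := hπs w
    let g : Z → AlgebraicClosure ℚ := fun t => if π t = π x then 1 else 0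
    have hg : g ∈ Submodule.span (AlgebraicClosure ℚ) (H₀ : Set (Z → AlgebraicClosure ℚ)) := by
      have h1 := span_eq_top_of_separates (K := AlgebraicClosure ℚ) H₀.toSubmonoid hH.separates
      have h2 : ((H₀.toSubmonoid : Submonoid (Z → AlgebraicClosure ℚ)) :
          Set (Z → AlgebraicClosure ℚ)) = (H₀ : Set (Z → AlgebraicClosure ℚ)) := rfl
      rw [h2] at h1
      rw [h1]
      exact Submodule.mem_top
    obtain ⟨n, c, a, hca⟩ := Submodule.mem_span_set'.mp hg
    have hgx : ∀ t, ∑ i, c i * (a i : Z → AlgebraicClosure ℚ) t = g t := by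
      intro t
      have := congrFun hca t
      simpa [Finset.sum_apply] using this
    have hgW : ∀ t t', π t = π t' →
        ∑ i, c i * (a i : Z → AlgebraicClosure ℚ) t =
          ∑ i, c i * (a i : Z → AlgebraicClosure ℚ) t' := by
      intro t t' ht
      rw [hgx, hgx]
      simp only [g, ht]
    have hp := hpc n (fun i => (a i : Z → AlgebraicClosure ℚ)) c (fun i => (a i).2) hgW
    have hex : ∃ i, p (a i) x ≠ p (a i) y := by
      by_contra hcon
      have hall : ∀ i, p (a i) x = p (a i) y := by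
        intro i
        by_contra hi
        exact hcon ⟨i, hi⟩
      have h1 : g x = g y := by
        rw [← hgx x, ← hgx y, ← hp x, ← hp y]
        refine Finset.sum_congr rfl fun i _ => ?_
        rw [hall i]
      have hgx1 : g x = 1 := by simp [g]
      have hgy0 : g y = 0 := by
        simp only [g]
        rw [if_neg]
        exact fun h => hzw h.symm
      rw [hgx1, hgy0] at h1
      exact one_ne_zero h1
    obtain ⟨i, hi⟩ := hex
    obtain ⟨f'', hf''mem, hf''⟩ := hdesc (p (a i)) (hpH _ (a i).2) (hpW _ (a i).2)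
    refine ⟨f'', hf''mem, ?_⟩
    rw [hf'', hf'']
    exact hi
  · -- comultiplication
    intro h hh
    rw [Subalgebra.mem_comap] at hh
    obtain ⟨n, a, b, ha, hb, hab⟩ := hH.comul_mem _ hh
    have hab' : ∀ z z' : Z, h (π z + π z') = ∑ i, a i z * b i z' := by
      intro z z'
      have := hab z z'
      simp only [pullAlg_apply, map_add] at this
      exact this
    have step1 : ∀ z z' : Z, ∑ i, b i z' * p (a i) z = ∑ i, b i z' * a i z := by
      intro z z'
      refine hpc n a (fun i => b i z') ha ?_ z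
      intro x x' hx
      have e1 : ∑ i, b i z' * a i x = h (π x + π z') := by
        rw [hab']
        exact Finset.sum_congr rfl fun i _ => mul_comm _ _
      have e2 : ∑ i, b i z' * a i x' = h (π x' + π z') := by
        rw [hab']
        exact Finset.sum_congr rfl fun i _ => mul_comm _ _
      rw [e1, e2, hx]
    have step1c : ∀ z z' : Z, ∑ i, p (a i) z * b i z' = ∑ i, a i z * b i z' := by
      intro z z'
      calc ∑ i, p (a i) z * b i z' = ∑ i, b i z' * p (a i) z :=
            Finset.sum_congr rfl (fun i _ => mul_comm _ _)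
        _ = ∑ i, b i z' * a i z := step1 z z'
        _ = ∑ i, a i z * b i z' := Finset.sum_congr rfl (fun i _ => mul_comm _ _)
    have step2 : ∀ z z' : Z, ∑ i, p (a i) z * p (b i) z' = ∑ i, p (a i) z * b i z' := by
      intro z z'
      refine hpc n b (fun i => p (a i) z) hb ?_ z'
      intro x x' hx
      have e1 : ∀ t : Z, ∑ i, p (a i) z * b i t = h (π z + π t) := by
        intro t
        rw [hab', step1c]
      rw [e1, e1, hx]
    have hfinal : ∀ z z' : Z, h (π z + π z') = ∑ i, p (a i) z * p (b i) z' := by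
      intro z z'
      rw [step2, step1c, hab']
    have hda := fun i => hdesc (p (a i)) (hpH _ (ha i)) (hpW _ (ha i))
    have hdb := fun i => hdesc (p (b i)) (hpH _ (hb i)) (hpW _ (hb i))
    choose a'' ha''mem ha'' using hda
    choose b'' hb''mem hb'' using hdb
    refine ⟨n, a'', b'', ha''mem, hb''mem, ?_⟩
    intro z z'
    obtain ⟨x, rfl⟩ := hπs z
    obtain ⟨y, rfl⟩ := hπs z'
    rw [hfinal]
    refine Finset.sum_congr rfl fun i _ => ?_
    rw [ha'', hb'']
  · -- antipode
    intro h hh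
    rw [Subalgebra.mem_comap] at hh ⊢
    have h1 := hH.antipode_mem _ hh
    have h2 : pullAlg (Zl ℓ) (⇑π) (fun z => h (-z)) = fun z => pullAlg (Zl ℓ) (⇑π) h (-z) := by
      funext x
      simp only [pullAlg_apply, map_neg]
    rw [h2]
    exact h1

end

end Fermat.Agent.H83.FF
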