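/-
P-FF row 512 (helper83), FF-E-QUOT: Hopf models pass to equivariant quotients.

`quotientModel : Fermat.Agent.H10.FF.QuotientModelStatement` (unconditional), from
* `H34.exists_concreteOrder_of_model` (model => concrete order, helper34),
* `quotient_concrete` (quotient of a concrete order, this directory),
* `H10.FF.concreteOrderStatement` (concrete order => model, helper10).
-/
import Mathlib
import Fermat.Agent.H10.FF.Points
import Fermat.Agent.H34.FF.SubModel
import Fermat.Agent.H83.FF.QuotConcrete

set_option autoImplicit false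

noncomputable section

namespace Fermat.Agent.H83.FF

open Fermat.Agent.H10.FF

/-- **FF-E-QUOT** (given FF-CORE): Hopf models pass to equivariant quotients. -/
theorem quotientModel_of_core (hcore : ConcreteOrderStatement) : QuotientModelStatement := by
  intro ℓ _ Z _ _ _ Z'' _ _ π hπs hπσ h
  obtain ⟨H₀, hH₀⟩ := Fermat.Agent.H34.exists_concreteOrder_of_model (ℓ := ℓ)
    (fun (σ : GQ) (z : Z) => σ • z) (⊤ : AddSubgroup Z) (fun _ _ _ => AddSubgroup.mem_top _) h
  haveI : Finite Z'' := Finite.of_surjective π hπs
  let π' : (⊤ : AddSubgroup Z) →+ Z'' := π.comp (AddSubgroup.subtype ⊤)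
  have hπ's : Function.Surjective π' := by
    intro y
    obtain ⟨x, rfl⟩ := hπs y
    exact ⟨⟨x, AddSubgroup.mem_top _⟩, rfl⟩
  have hq := quotient_concrete ℓ
    (fun (σ : GQ) (z : (⊤ : AddSubgroup Z)) =>
      (⟨σ • (z : Z), AddSubgroup.mem_top _⟩ : (⊤ : AddSubgroup Z)))
    (fun (σ : GQ) (z : Z'') => σ • z) π' hπ's
    (by
      intro σ z
      refine ⟨⟨σ⁻¹ • (z : Z), AddSubgroup.mem_top _⟩, ?_⟩
      apply Subtype.ext
      show σ • σ⁻¹ • (z : Z) = z
      rw [smul_inv_smul])
    (fun σ => MulAction.injective σ)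
    (by
      intro σ z
      show π (σ • (z : Z)) = σ • π (z : Z)
      exact hπσ σ z)
    H₀ hH₀
  exact hcore ℓ Z'' _ hq

/-- **FF-E-QUOT**: Hopf models pass to equivariant quotients. -/
theorem quotientModel : QuotientModelStatement :=
  quotientModel_of_core concreteOrderStatement

end Fermat.Agent.H83.FF
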